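import Fermat.Agent.S19.Formal.Core

set_option autoImplicit false

/-!
# S32 / FLAT : orders of functions on a finite Galois module

`HasOrder ℓ M act` : there is a `ℤ_(ℓ)`-order `𝒜` of Galois equivariant functions `M → ℚ̄`, finitely generated as a module,
separating the points and stable under the comultiplication.  This is equivalent to `S19.Formal.Conclusion ℓ M act`
(`M` = points of a finite flat cocommutative Hopf algebra over `ℤ_(ℓ)`), and it is visibly stable under
subobjects, finite products and (less visibly) quotients.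
-/

namespace Fermat.Agent.S32

open Fermat.Agent.S19.Formal

/-- `𝒜` is a Hopf order of functions on `M`. -/
structure IsOrder (ℓ : ℕ) {M : Type} [AddCommGroup M] (act : Gal → M → M)
    (𝒜 : Subalgebra (Rl ℓ) (M → Qb)) : Prop where
  fg : (Subalgebra.toSubmodule 𝒜).FG
  eqv : ∀ a ∈ 𝒜, ∀ (σ : Gal) (x : M), a (act σ x) = σ (a x)
  sep : ∀ x x' : M, (∀ a ∈ 𝒜, a x = a x') → x = x'
  comul : ∀ a ∈ 𝒜, ∃ (n : ℕ) (u v : Fin n → M → Qb), (∀ i, u i ∈ 𝒜) ∧ (∀ i, v i ∈ 𝒜) ∧
    ∀ x x' : M, a (x + x') = ∑ i, u i x * v i x'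

/-- `M` has a Hopf order. -/
def HasOrder (ℓ : ℕ) (M : Type) [AddCommGroup M] (act : Gal → M → M) : Prop :=
  ∃ 𝒜 : Subalgebra (Rl ℓ) (M → Qb), IsOrder ℓ act 𝒜

end Fermat.Agent.S32
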