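import Fermat.Agent.S32.Flat.Defs

set_option autoImplicit false

/-!
# S32 / FLAT / F2 : a Hopf algebra gives an order

SKETCH: `⟨H, _, _, hfin, hflat, hcc, e, he1, he2⟩`.  `ev : H →ₐ[R] (M → Qb)`, `ev h x = (e.symm x) h`  (`AlgHom.pi`/`Pi.algHom`), `𝒜 := ev.range`.
* `fg` : image of `⊤` which is fg (`Module.Finite`), `Submodule.FG.map`.
* `eqv` : for `σ`, `x`, put `f := e.symm x`, `g := WithConv.toConv ((σ : Qb →ₐ[ℚ] Qb).restrictScalars R |>.comp f.ofConv)`; `he2 σ f g (fun _ => rfl)`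
  gives `e g = act σ x`, so `e.symm (act σ x) = g`.
* `sep` : `e.symm x = e.symm x'` by `AlgHom.ext`.
* `comul` : `e.symm (x + x') = e.symm x * e.symm x'` (from `he1`), convolution product: `(f * g) h = mul' (map f g (comul h))`
  (`AlgHom.convMul_apply` / `WithConv` API in `Mathlib/RingTheory/Bialgebra/Convolution.lean`, `Coalgebra/Convolution.lean`);
  write `comul h = ∑ i, a i ⊗ₜ b i` (`TensorProduct.exists_finset` or `Coalgebra.Repr`), `u i = ev (a i)`, `v i = ev (b i)`.
-/

namespace Fermat.Agent.S32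

open Fermat.Agent.S19.Formal

theorem hasOrder_of_conclusion {ℓ : ℕ} {M : Type} [AddCommGroup M]
    {act : Gal → M → M} (h : Conclusion ℓ M act) : HasOrder ℓ M act := by
  sorry

end Fermat.Agent.S32
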