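import Fermat.Agent.S32.Flat.Defs

set_option autoImplicit false

/-!
# S32 / FLAT / F5 : quotients

`π : M → Z` surjective equivariant, `Y = ker π`.  `𝒜_Z := 𝒜.comap (pull (Rl ℓ) π)` = `{φ : Z → Qb | φ ∘ π ∈ 𝒜}`.

* `fg` : `pull π` is injective, `𝒜_Z ≃ 𝒜 ⊓ range (pull π)` is a submodule of a noetherian module (`Rl ℓ` is a PID: `isPrincipalIdealRing_Rl`).
* `eqv` : by surjectivity of `π`.
* (F5a) `trace_mem` : `a(x + y) = ∑ i, u i x * v i y`, so `∑_{y ∈ Y} a(x+y) = ∑ i, (∑_{y ∈ Y} v i y) * u i x` and `∑_{y ∈ Y} v i y` is Galois invariant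
  (`act σ` permutes `Y`), integral over `Rl ℓ`, so in `Rl ℓ` (`mem_range_of_fixed_of_isIntegral`).
* (F5b) `sep_quot` : if `π x ≠ π x'` the `2 |Y|` points `x + y`, `x' + y` are distinct, the evaluations `𝒜 → Qb` at distinct points are distinct monoid homs (by `sep`),
  so linearly independent (`linearIndependent_monoidHom`); but `∑_y ev (x+y) - ∑_y ev (x'+y)` kills `𝒜` as soon as all the traces (which are in `𝒜_Z`) agree at `π x`, `π x'`.
* (F5c) `comul_quot` : two steps.  `b j` an `Rl ℓ`-basis of `𝒜` (fg torsion free over a PID), it is `Qb`-linearly independent (`linearIndependent_of_equivariant`; `act σ` is surjective because it is injective by `sep` + `eqv`).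
  `(φ ∘ π)(x + x') = ∑ j, b j x * β j x'`, `β j ∈ 𝒜`; comparing `x'` and `x' + y`: `β j` is `Y`-invariant, so `β j = β' j ∘ π`, `β' j ∈ 𝒜_Z`.  Expand the `β' j` in an `Rl ℓ`-basis `d k` of `𝒜_Z`:
  `(φ ∘ π)(x + x') = ∑ k, α k x * d k (π x')`, `α k ∈ 𝒜`; the `d k ∘ π` are `Qb`-linearly independent, so the `α k` are `Y`-invariant, `α k = α' k ∘ π`.
-/

namespace Fermat.Agent.S32

open Fermat.Agent.S19.Formal

variable {ℓ : ℕ} [Fact ℓ.Prime] {M Z : Type} [AddCommGroup M] [Finite M] [AddCommGroup Z]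
  {act : Gal → M → M} {actZ : Gal → Z → Z}

/-- (F5a) -/
theorem IsOrder.trace_mem {𝒜 : Subalgebra (Rl ℓ) (M → Qb)} (h : IsOrder ℓ act 𝒜)
    (Y : Finset M) (hY : ∀ σ, ∀ y, y ∈ Y ↔ act σ y ∈ Y) (a : M → Qb) (ha : a ∈ 𝒜) :
    (fun x => ∑ y ∈ Y, a (x + y)) ∈ 𝒜 := by
  sorry

/-- (F5b) -/
theorem IsOrder.sep_quot {𝒜 : Subalgebra (Rl ℓ) (M → Qb)} (h : IsOrder ℓ act 𝒜)
    (π : M →+ Z) (hπ : Function.Surjective π) (hact : ∀ σ x, π (act σ x) = actZ σ (π x))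
    (z z' : Z) (hz : ∀ φ : Z → Qb, (fun x => φ (π x)) ∈ 𝒜 → φ z = φ z') : z = z' := by
  sorry

/-- (F5c) -/
theorem IsOrder.comul_quot {𝒜 : Subalgebra (Rl ℓ) (M → Qb)} (h : IsOrder ℓ act 𝒜)
    (π : M →+ Z) (hπ : Function.Surjective π) (hact : ∀ σ x, π (act σ x) = actZ σ (π x))
    (φ : Z → Qb) (hφ : (fun x => φ (π x)) ∈ 𝒜) :
    ∃ (n : ℕ) (u v : Fin n → Z → Qb), (∀ i, (fun x => u i (π x)) ∈ 𝒜) ∧
      (∀ i, (fun x => v i (π x)) ∈ 𝒜) ∧ ∀ z z' : Z, φ (z + z') = ∑ i, u i z * v i z' := by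
  sorry

/-- (F5) -/
theorem HasOrder.quot (π : M →+ Z) (hπ : Function.Surjective π)
    (hact : ∀ σ x, π (act σ x) = actZ σ (π x)) (h : HasOrder ℓ M act) : HasOrder ℓ Z actZ := by
  sorry

end Fermat.Agent.S32
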