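import Fermat.Agent.S32.Flat.Defs

set_option autoImplicit false

/-!
# S32 / FLAT / F5a : traces along an invariant finite set stay in the order
-/

namespace Fermat.Agent.S32

open Fermat.Agent.S19.Formal

variable {ℓ : ℕ} [Fact ℓ.Prime] {M : Type} [AddCommGroup M]
  {act : Gal → M → M}

omit [Fact ℓ.Prime] in
theorem IsOrder.trA_act_injective {𝒜 : Subalgebra (Rl ℓ) (M → Qb)} (h : IsOrder ℓ act 𝒜)
    (σ : Gal) : Function.Injective (act σ) := by
  intro x x' hx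
  apply h.sep
  intro a ha
  have h1 := h.eqv a ha σ x
  rw [hx, h.eqv a ha σ x'] at h1
  exact (σ.injective h1).symm

omit [Fact ℓ.Prime] in
theorem IsOrder.trA_act_inv {𝒜 : Subalgebra (Rl ℓ) (M → Qb)} (h : IsOrder ℓ act 𝒜)
    (σ : Gal) (x : M) : act σ⁻¹ (act σ x) = x := by
  apply h.sep
  intro a ha
  rw [h.eqv a ha, h.eqv a ha]
  exact σ.symm_apply_apply _

omit [Fact ℓ.Prime] in
theorem IsOrder.trA_act_add {𝒜 : Subalgebra (Rl ℓ) (M → Qb)} (h : IsOrder ℓ act 𝒜)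
    (σ : Gal) (x x' : M) : act σ (x + x') = act σ x + act σ x' := by
  apply h.sep
  intro a ha
  obtain ⟨n, u, v, hu, hv, huv⟩ := h.comul a ha
  rw [h.eqv a ha, huv, huv, map_sum]
  refine Finset.sum_congr rfl fun i _ => ?_
  rw [map_mul, h.eqv _ (hu i), h.eqv _ (hv i)]

omit [Fact ℓ.Prime] in
theorem IsOrder.trA_act_zero {𝒜 : Subalgebra (Rl ℓ) (M → Qb)} (h : IsOrder ℓ act 𝒜)
    (σ : Gal) : act σ 0 = 0 := by
  have h1 := h.trA_act_add σ 0 0
  rw [add_zero] at h1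
  exact left_eq_add.mp h1

omit [Fact ℓ.Prime] in
theorem IsOrder.trA_isIntegral {𝒜 : Subalgebra (Rl ℓ) (M → Qb)} (h : IsOrder ℓ act 𝒜)
    (a : M → Qb) (ha : a ∈ 𝒜) (x : M) : IsIntegral (Rl ℓ) (a x) := by
  have h1 : IsIntegral (Rl ℓ) a := IsIntegral.of_mem_of_fg 𝒜 h.fg a ha
  exact h1.map (Pi.evalAlgHom (Rl ℓ) (fun _ : M => Qb) x)

/-- (F5a) -/
theorem IsOrder.trace_mem {𝒜 : Subalgebra (Rl ℓ) (M → Qb)} (h : IsOrder ℓ act 𝒜)
    (Y : Finset M) (hY : ∀ σ, ∀ y, y ∈ Y ↔ act σ y ∈ Y) (a : M → Qb) (ha : a ∈ 𝒜) :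
    (fun x => ∑ y ∈ Y, a (x + y)) ∈ 𝒜 := by
  classical
  obtain ⟨n, u, v, hu, hv, huv⟩ := h.comul a ha
  have hs : ∀ i, ∃ r : Rl ℓ, algebraMap (Rl ℓ) Qb r = ∑ y ∈ Y, v i y := by
    intro i
    apply mem_range_of_fixed_of_isIntegral ℓ
    · intro σ
      rw [map_sum]
      have h1 : ∀ y ∈ Y, σ (v i y) = v i (act σ y) := fun y _ => (h.eqv _ (hv i) σ y).symm
      rw [Finset.sum_congr rfl h1]
      have h2 : Y.image (act σ) = Y := by
        apply Finset.eq_of_subset_of_card_le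
        · intro y hy
          obtain ⟨y', hy', rfl⟩ := Finset.mem_image.mp hy
          exact (hY σ y').mp hy'
        · rw [Finset.card_image_of_injective _ (h.trA_act_injective σ)]
      conv_rhs => rw [← h2]
      rw [Finset.sum_image fun y _ y' _ hyy => h.trA_act_injective σ hyy]
    · exact IsIntegral.sum _ fun y _ => h.trA_isIntegral _ (hv i) y
  choose r hr using hs
  have h3 : (fun x => ∑ y ∈ Y, a (x + y)) = ∑ i, r i • u i := by
    funext x
    simp only [huv, Finset.sum_apply, Pi.smul_apply]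
    rw [Finset.sum_comm]
    refine Finset.sum_congr rfl fun i _ => ?_
    rw [Algebra.smul_def, hr, ← Finset.mul_sum, mul_comm]
  rw [h3]
  exact Subalgebra.sum_mem _ fun i _ => Subalgebra.smul_mem _ (hu i) _

end Fermat.Agent.S32
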