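import Fermat.Agent.S32.Flat.QuotA

set_option autoImplicit false

/-!
# S32 / FLAT / F5b : the invariant functions of the order separate the points of the quotient
-/

namespace Fermat.Agent.S32

open Fermat.Agent.S19.Formal

variable {ℓ : ℕ} [Fact ℓ.Prime] {M Z : Type} [AddCommGroup M] [Finite M] [AddCommGroup Z]
  {act : Gal → M → M} {actZ : Gal → Z → Z}

omit [Finite M] in
/-- the sum over the fibres of `π` of a function of the order is in the order. -/
theorem IsOrder.trB_fibre_mem {𝒜 : Subalgebra (Rl ℓ) (M → Qb)} (h : IsOrder ℓ act 𝒜)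
    [Fintype M] [DecidableEq Z]
    (π : M →+ Z) (hact : ∀ σ x, π (act σ x) = actZ σ (π x)) (a : M → Qb) (ha : a ∈ 𝒜) :
    (fun x => ∑ m with π m = π x, a m) ∈ 𝒜 := by
  classical
  have hfw : ∀ σ y, π y = 0 → π (act σ y) = 0 := by
    intro σ y hy
    rw [hact, hy, ← map_zero π, ← hact, h.trA_act_zero, map_zero]
  have h1 := h.trace_mem (Finset.univ.filter fun y => π y = 0) (by
    intro σ y
    simp only [Finset.mem_filter, Finset.mem_univ, true_and]
    refine ⟨hfw σ y, fun hy => ?_⟩
    have := hfw σ⁻¹ _ hy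
    rwa [h.trA_act_inv] at this) a ha
  convert h1 using 2 with x
  symm
  apply Finset.sum_bij (fun y _ => x + y)
  · intro y hy
    simp only [Finset.mem_filter, Finset.mem_univ, true_and] at hy ⊢
    rw [map_add, hy, add_zero]
  · intro y _ y' _ hyy
    exact add_left_cancel hyy
  · intro m hm
    simp only [Finset.mem_filter, Finset.mem_univ, true_and] at hm
    refine ⟨m - x, ?_, by abel⟩
    simp only [Finset.mem_filter, Finset.mem_univ, true_and]
    rw [map_sub, hm, sub_self]
  · intro y _
    rfl

omit [Fact ℓ.Prime] [Finite M] in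
/-- the evaluations at the points of `M` are linearly independent on the order. -/
theorem IsOrder.trB_linearIndependent {𝒜 : Subalgebra (Rl ℓ) (M → Qb)} (h : IsOrder ℓ act 𝒜) :
    LinearIndependent Qb (fun (m : M) (a : 𝒜) => (a : M → Qb) m) := by
  let ev : M → (𝒜 →* Qb) := fun m =>
    { toFun := fun a => (a : M → Qb) m
      map_one' := rfl
      map_mul' := fun _ _ => rfl }
  have hev : Function.Injective ev := by
    intro m m' hm
    apply h.sep
    intro a ha
    exact DFunLike.congr_fun hm (⟨a, ha⟩ : 𝒜)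
  exact (linearIndependent_monoidHom 𝒜 Qb).comp ev hev

/-- (F5b) -/
theorem IsOrder.sep_quot {𝒜 : Subalgebra (Rl ℓ) (M → Qb)} (h : IsOrder ℓ act 𝒜)
    (π : M →+ Z) (hπ : Function.Surjective π) (hact : ∀ σ x, π (act σ x) = actZ σ (π x))
    (z z' : Z) (hz : ∀ φ : Z → Qb, (fun x => φ (π x)) ∈ 𝒜 → φ z = φ z') : z = z' := by
  classical
  have := Fintype.ofFinite M
  obtain ⟨x, rfl⟩ := hπ z
  have hli := Fintype.linearIndependent_iff.mp h.trB_linearIndependent
    (fun m => (if π m = π x then 1 else 0) - (if π m = z' then 1 else 0)) (by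
      funext a
      have h1 := hz (fun w => ∑ m with π m = w, (a : M → Qb) m)
        (h.trB_fibre_mem π hact a a.2)
      simp only [Finset.sum_apply, Pi.smul_apply, smul_eq_mul, sub_mul, ite_mul, one_mul,
        zero_mul, Finset.sum_sub_distrib, Pi.zero_apply]
      rw [← Finset.sum_filter, ← Finset.sum_filter, sub_eq_zero]
      exact h1) x
  by_contra hne
  simp only [if_true, if_neg hne, sub_zero] at hli
  exact one_ne_zero hli

end Fermat.Agent.S32
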