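import Fermat.Agent.S32.Flat.Defs

set_option autoImplicit false

/-!
# S32 / FLAT / F3 + F4 : subobjects and finite products

F3: `𝒜' := 𝒜.map (pull (Rl ℓ) j)`: everything is immediate.
F4: `𝒜' := ⨆ k, 𝒜.map (pull (Rl ℓ) (fun x => x k))` = `Algebra.adjoin` of the finitely many functions `x ↦ c i (x k)` (`c i` module generators of `𝒜`);
`fg` by `fg_adjoin_of_finite` (integral elements); `eqv`: the equivariant functions form a subalgebra (`S19.Formal.eqvAlg`); `sep` clear;
`comul`: the set of `a` having the `comul` property w.r.t. `𝒜'` is a subalgebra (sums: concatenate with `Fin.append` or use a `Finset`/`Σ` index; products: index `Fin n × Fin n'`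
 through `finProdFinEquiv`; it may be convenient to prove first that `comul` is equivalent to the same statement with an arbitrary `Fintype` index).
-/

namespace Fermat.Agent.S32

open Fermat.Agent.S19.Formal

theorem HasOrder.sub {ℓ : ℕ} {M M' : Type} [AddCommGroup M] [AddCommGroup M']
    {act : Gal → M → M} {act' : Gal → M' → M'} (j : M' →+ M) (hj : Function.Injective j)
    (hact : ∀ σ x, j (act' σ x) = act σ (j x)) (h : HasOrder ℓ M act) : HasOrder ℓ M' act' := by
  sorry

theorem HasOrder.pi {ℓ : ℕ} {M : Type} [AddCommGroup M] {act : Gal → M → M} (κ : Type) [Finite κ]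
    (h : HasOrder ℓ M act) : HasOrder ℓ (κ → M) (fun σ x k => act σ (x k)) := by
  sorry

end Fermat.Agent.S32
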