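import Fermat.Agent.S32.Flat.SubPi
import Fermat.Agent.S32.Flat.Quot

set_option autoImplicit false

/-!
# S32 / FLAT / F6 : subquotients

`M' := α.range` with the restricted action (stable by `hst`), `HasOrder.sub`; the map `M' → M₂`, `α x ↦ β x` is well defined by `hker`
(`QuotientAddGroup.quotientKerEquivRange α`, `QuotientAddGroup.lift`), surjective and equivariant by `hst`; `HasOrder.quot`.
-/

namespace Fermat.Agent.S32

open Fermat.Agent.S19.Formal

theorem HasOrder.subquot {ℓ : ℕ} [Fact ℓ.Prime] {E M₁ M₂ : Type} [AddCommGroup E] [AddCommGroup M₁]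
    [Finite M₁] [AddCommGroup M₂] {act₁ : Gal → M₁ → M₁} {act₂ : Gal → M₂ → M₂}
    (α : E →+ M₁) (β : E →+ M₂) (hβ : Function.Surjective β)
    (hker : ∀ x, α x = 0 → β x = 0)
    (hst : ∀ σ x, ∃ x', α x' = act₁ σ (α x) ∧ β x' = act₂ σ (β x))
    (h : HasOrder ℓ M₁ act₁) : HasOrder ℓ M₂ act₂ := by
  sorry

end Fermat.Agent.S32
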