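import Fermat.Agent.S32.Flat.Defs

set_option autoImplicit false

/-!
# S32 / FLAT / F1 : an order gives a Hopf algebra

SKETCH: `h.fg` gives a finite family `c : Fin n → M → Qb` of module generators of `𝒜`
(`Submodule.fg_iff_exists_fin_generating_family`).  Apply `S19.Formal.core ℓ act c γ`:
`hceq` = `eqv`; `hcint` : `IsIntegral.of_mem_of_fg 𝒜 h.fg`; `hcinj` : `sep` + every `a ∈ 𝒜` is an `R`-combination of the `c i`;
`hcmul` : `comul (c i)` gives `u v`, expand every `u k`, `v k` in the `c j` (`Submodule.mem_span_range_iff_exists_fun`), collect `γ`.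
-/

namespace Fermat.Agent.S32

open Fermat.Agent.S19.Formal

theorem HasOrder.conclusion {ℓ : ℕ} [Fact ℓ.Prime] {M : Type} [AddCommGroup M] [Finite M]
    {act : Gal → M → M} (h : HasOrder ℓ M act) : Conclusion ℓ M act := by
  sorry

end Fermat.Agent.S32
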